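import Fermat.Agent.RieszProducts.Zygmund
import Mathlib.MeasureTheory.Function.ContinuousMapDense
import Mathlib.MeasureTheory.Measure.LevyConvergence
import Mathlib.Probability.ConditionalProbability
import Mathlib.Probability.Distributions.Gaussian.Real

/-!
# The central limit theorem for lacunary series

Salem and Zygmund. With `x k = Re (α k e (n k x))` the product of the `exp (i x k)` is uniformly
close to `∏ (1 + i x k) exp (-(x k) ^ 2 / 2)`; here `∑ x k ^ 2` tends to a constant in mean, and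
the complex Riesz product `∏ (1 + i x k)` tends weakly to `1`.
-/

set_option autoImplicit false

noncomputable section

open MeasureTheory Finset Filter Topology AddCircle
open scoped ComplexConjugate ENNReal Real BoundedContinuousFunction ProbabilityTheory

namespace FA.LacunaryCLT

open FA.RieszProducts

theorem norm_exp_sub_one_add_mul_exp_le {u : ℝ} (hu : |u| ≤ 1) :
    ‖Complex.exp (u * Complex.I) - (1 + u * Complex.I) * (Real.exp (-u ^ 2 / 2) : ℂ)‖
      ≤ 2 * |u| ^ 3 := by
  have hn : ‖(u : ℂ) * Complex.I‖ = |u| := by simp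
  have h1 : ‖Complex.exp (u * Complex.I) - (1 + u * Complex.I + (u * Complex.I) ^ 2 / 2)‖
      ≤ |u| ^ 3 * (2 / 9) := by
    have h := Complex.exp_bound (hn.le.trans hu) (n := 3) (by norm_num)
    rw [hn] at h
    norm_num [sum_range_succ, Nat.factorial] at h
    exact h
  have hsq : u ^ 2 ≤ 1 := by nlinarith [sq_abs u, abs_nonneg u]
  have hy : |(-u ^ 2 / 2 : ℝ)| ≤ 1 := by
    rw [abs_le]
    constructor <;> nlinarith [sq_nonneg u]
  have h2 := Real.abs_exp_sub_one_sub_id_le hy
  have hq : (-u ^ 2 / 2) ^ 2 ≤ |u| ^ 3 / 4 := by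
    have : (-u ^ 2 / 2) ^ 2 = |u| ^ 3 / 4 * |u| := by
      rw [show |u| ^ 3 / 4 * |u| = (|u| ^ 2) ^ 2 / 4 by ring, sq_abs]
      ring
    rw [this]
    exact mul_le_of_le_one_right (by positivity) hu
  have h3 : ‖((Real.exp (-u ^ 2 / 2) - 1 - -u ^ 2 / 2 : ℝ) : ℂ)‖ ≤ |u| ^ 3 / 4 := by
    rw [Complex.norm_real]
    exact h2.trans hq
  have e : Complex.exp (u * Complex.I) - (1 + u * Complex.I) * (Real.exp (-u ^ 2 / 2) : ℂ) =
      (Complex.exp (u * Complex.I) - (1 + u * Complex.I + (u * Complex.I) ^ 2 / 2)) +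
        ((u ^ 3 / 2 : ℝ) : ℂ) * Complex.I -
        (1 + u * Complex.I) * ((Real.exp (-u ^ 2 / 2) - 1 - -u ^ 2 / 2 : ℝ) : ℂ) := by
    push_cast
    linear_combination ((u : ℂ) ^ 2 / 2) * Complex.I_sq
  have h4 : ‖(1 : ℂ) + u * Complex.I‖ ≤ 2 :=
    (norm_add_le _ _).trans (by rw [norm_one, hn]; linarith)
  have h5 : ‖((u ^ 3 / 2 : ℝ) : ℂ) * Complex.I‖ = |u| ^ 3 / 2 := by
    simp
  rw [e]
  refine (norm_sub_le _ _).trans ?_
  refine (add_le_add ((norm_add_le _ _).trans (add_le_add h1 h5.le))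
    ((norm_mul _ _).trans_le (mul_le_mul h4 h3 (norm_nonneg _) (by norm_num)))).trans ?_
  nlinarith [pow_nonneg (abs_nonneg u) 3]

theorem norm_prod_sub_prod_le {ι : Type*} (s : Finset ι) (f g : ι → ℂ)
    (hf : ∀ i ∈ s, ‖f i‖ ≤ 1) (hg : ∀ i ∈ s, ‖g i‖ ≤ 1) :
    ‖(∏ i ∈ s, f i) - ∏ i ∈ s, g i‖ ≤ ∑ i ∈ s, ‖f i - g i‖ := by
  classical
  induction s using Finset.induction with
  | empty => simp
  | insert a s ha ih =>
    rw [prod_insert ha, prod_insert ha, sum_insert ha,
      show f a * (∏ i ∈ s, f i) - g a * ∏ i ∈ s, g i =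
        (f a - g a) * (∏ i ∈ s, f i) + g a * ((∏ i ∈ s, f i) - ∏ i ∈ s, g i) by ring]
    refine (norm_add_le _ _).trans (add_le_add ?_ ?_)
    · rw [norm_mul, norm_prod]
      exact mul_le_of_le_one_right (norm_nonneg _) (Finset.prod_le_one (fun i _ => norm_nonneg _)
        fun i hi => hf i (mem_insert_of_mem hi))
    · rw [norm_mul]
      exact le_trans (mul_le_of_le_one_left (norm_nonneg _) (hg a (mem_insert_self a s)))
        (ih (fun i hi => hf i (mem_insert_of_mem hi)) fun i hi => hg i (mem_insert_of_mem hi))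

/-- The trigonometric monomials. -/
def wave (n : ℕ → ℕ) (α : ℕ → ℂ) (k : ℕ) (x : UnitAddCircle) : ℝ :=
  (α k * fourier (n k : ℤ) x).re

theorem continuous_wave (n : ℕ → ℕ) (α : ℕ → ℂ) (k : ℕ) : Continuous (wave n α k) := by
  unfold wave
  fun_prop

theorem abs_wave_le (n : ℕ → ℕ) (α : ℕ → ℂ) (k : ℕ) (x : UnitAddCircle) :
    |wave n α k x| ≤ ‖α k‖ := by
  refine (Complex.abs_re_le_norm _).trans ?_
  rw [norm_mul, fourier_apply, Circle.norm_coe, mul_one]

theorem wave_sq (n : ℕ → ℕ) (α : ℕ → ℂ) (k : ℕ) (x : UnitAddCircle) :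
    wave n α k x ^ 2 =
      ‖α k‖ ^ 2 / 2 + (α k ^ 2 * fourier ((2 * n k : ℕ) : ℤ) x).re / 2 := by
  set w := α k * fourier (n k : ℤ) x with hw
  have e : α k ^ 2 * fourier ((2 * n k : ℕ) : ℤ) x = w ^ 2 := by
    rw [hw, mul_pow, sq (fourier (n k : ℤ) x), ← fourier_add]
    push_cast
    rw [two_mul]
  have hn : ‖w‖ = ‖α k‖ := by rw [hw, norm_mul, fourier_apply, Circle.norm_coe, mul_one]
  rw [e, ← hn, show wave n α k x = w.re from rfl]
  clear_value w
  rw [← Complex.normSq_eq_norm_sq, Complex.normSq_apply, sq w, Complex.mul_re]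
  ring

/-- The complex Riesz product. -/
def complexProduct (n : ℕ → ℕ) (α : ℕ → ℂ) (K : ℕ) (x : UnitAddCircle) : ℂ :=
  ∏ k ∈ range K, (1 + (wave n α k x : ℂ) * Complex.I)

theorem continuous_complexProduct (n : ℕ → ℕ) (α : ℕ → ℂ) (K : ℕ) :
    Continuous (complexProduct n α K) := by
  unfold complexProduct wave
  fun_prop

theorem norm_one_add_mul_I_le (u : ℝ) : ‖1 + (u : ℂ) * Complex.I‖ ≤ Real.exp (u ^ 2 / 2) := by
  refine le_of_pow_le_pow_left₀ two_ne_zero (Real.exp_pos _).le ?_
  rw [← Complex.normSq_eq_norm_sq, show (1 : ℂ) = ((1 : ℝ) : ℂ) from rfl,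
    Complex.normSq_add_mul_I, ← Real.exp_nat_mul]
  refine le_trans ?_ (le_of_eq (by push_cast; rw [mul_div_cancel₀ _ two_ne_zero]))
  linarith [Real.add_one_le_exp (u ^ 2)]

/-- The transform of the complex product. -/
def complexCoeff (n : ℕ → ℕ) (α : ℕ → ℂ) (K : ℕ) (m : ℤ) : ℂ :=
  ∫ x, fourier m x * complexProduct n α K x ∂haarAddCircle

theorem integrable_fourier_mul_complexProduct (n : ℕ → ℕ) (α : ℕ → ℂ) (K : ℕ) (m : ℤ) :
    Integrable (fun x => fourier m x * complexProduct n α K x)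
      (haarAddCircle : Measure UnitAddCircle) :=
  ((fourier m).continuous.mul (continuous_complexProduct n α K)).integrable_of_hasCompactSupport
    (HasCompactSupport.of_compactSpace _)

theorem complexCoeff_zero (n : ℕ → ℕ) (α : ℕ → ℂ) (m : ℤ) :
    complexCoeff n α 0 m = if m = 0 then 1 else 0 := by
  simp only [complexCoeff, complexProduct, range_zero, prod_empty, mul_one, integral_fourier]

theorem complexCoeff_succ (n : ℕ → ℕ) (α : ℕ → ℂ) (K : ℕ) (m : ℤ) :
    complexCoeff n α (K + 1) m = complexCoeff n α K m +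
      α K * Complex.I / 2 * complexCoeff n α K (m + n K) +
      conj (α K) * Complex.I / 2 * complexCoeff n α K (m - n K) := by
  simp only [complexCoeff]
  rw [← integral_const_mul, ← integral_const_mul, ← integral_add
      (integrable_fourier_mul_complexProduct n α K m)
      ((integrable_fourier_mul_complexProduct n α K _).const_mul _),
    ← integral_add ((integrable_fourier_mul_complexProduct n α K m).fun_add
      ((integrable_fourier_mul_complexProduct n α K _).const_mul _))
      ((integrable_fourier_mul_complexProduct n α K _).const_mul _)]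
  refine integral_congr_ae (Eventually.of_forall fun x => ?_)
  simp only [complexProduct, wave, prod_range_succ, Complex.re_eq_add_conj, map_mul,
    sub_eq_add_neg, fourier_add, fourier_neg]
  ring

variable {n : ℕ → ℕ}

theorem complexCoeff_eq_zero (h : IsGap n) (α : ℕ → ℂ) :
    ∀ (K : ℕ) (m : ℤ), degreeBound n K < m.natAbs → complexCoeff n α K m = 0
  | 0, m, hm => by
    rw [complexCoeff_zero, if_neg (by omega)]
  | K + 1, m, hm => by
    rw [degreeBound_succ] at hm
    rw [complexCoeff_succ, complexCoeff_eq_zero h α K m (by omega),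
      complexCoeff_eq_zero h α K (m + n K) (by omega),
      complexCoeff_eq_zero h α K (m - n K) (by omega)]
    ring

theorem complexCoeff_eq_of_le (h : IsGap n) (α : ℕ → ℂ) {K J : ℕ} {m : ℤ}
    (hm : m.natAbs ≤ degreeBound n K) (hKJ : K ≤ J) :
    complexCoeff n α J m = complexCoeff n α K m := by
  induction J, hKJ using Nat.le_induction with
  | base => rfl
  | succ J hJ ih =>
    have := h.two_mul_degreeBound_lt J
    have := IsGap.degreeBound_mono n hJ
    rw [complexCoeff_succ, complexCoeff_eq_zero h α J (m + n J) (by omega),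
      complexCoeff_eq_zero h α J (m - n J) (by omega), ih]
    ring

/-- **The complex product tends weakly to `1`** if each coefficient tends to `0`. -/
theorem tendsto_complexCoeff (h : IsGap n) (α : ℕ → ℕ → ℂ)
    (h0 : ∀ k, Tendsto (fun K => α K k) atTop (𝓝 0)) (m : ℤ) :
    Tendsto (fun K => complexCoeff n (α K) K m) atTop (𝓝 (if m = 0 then 1 else 0)) := by
  have key : ∀ (j : ℕ) (m : ℤ),
      Tendsto (fun K => complexCoeff n (α K) j m) atTop (𝓝 (if m = 0 then 1 else 0)) := by
    intro j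
    induction j with
    | zero => intro m; simp only [complexCoeff_zero]; exact tendsto_const_nhds
    | succ j ih =>
      intro m
      simp only [complexCoeff_succ]
      simpa using ((ih m).add ((((h0 j).mul_const Complex.I).div_const 2).mul (ih (m + n j)))).add
        (((((Complex.continuous_conj.tendsto 0).comp (h0 j)).mul_const Complex.I).div_const 2).mul
          (ih (m - n j)))
  refine (key m.natAbs m).congr' (eventually_atTop.2 ⟨m.natAbs, fun K hK => ?_⟩)
  exact (complexCoeff_eq_of_le h (α K) (self_le_degreeBound h _) hK).symm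

/-- The characteristic kernel. -/
def kernel (n : ℕ → ℕ) (α : ℕ → ℂ) (K : ℕ) (x : UnitAddCircle) : ℂ :=
  Complex.exp ((∑ k ∈ range K, wave n α k x : ℝ) * Complex.I)

/-- The oscillating part of the sum of squares. -/
def squarePart (n : ℕ → ℕ) (α : ℕ → ℂ) (K : ℕ) (x : UnitAddCircle) : ℂ :=
  ∑ k ∈ range K, α k ^ 2 * fourier ((2 * n k : ℕ) : ℤ) x

theorem abs_exp_sub_one_le (y : ℝ) : |Real.exp y - 1| ≤ |y| * Real.exp |y| := by
  rcases le_total 0 y with hy | hy
  · rw [abs_of_nonneg (sub_nonneg.2 (Real.one_le_exp hy)), abs_of_nonneg hy]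
    nlinarith [Real.add_one_le_exp (-y), Real.exp_pos y,
      show Real.exp (-y) * Real.exp y = 1 by rw [← Real.exp_add]; simp]
  · rw [abs_of_nonpos (sub_nonpos.2 (Real.exp_le_one_iff.2 hy)), abs_of_nonpos hy]
    nlinarith [Real.add_one_le_exp y, Real.one_le_exp (neg_nonneg.2 hy)]

/-- **The main estimate.** -/
theorem norm_kernel_sub_le (n : ℕ → ℕ) (α : ℕ → ℂ) (K : ℕ) {t δ : ℝ} (hδ : δ ≤ 1)
    (hα : ∀ k ∈ range K, ‖α k‖ ≤ δ) (hsum : ∑ k ∈ range K, ‖α k‖ ^ 2 = 2 * t ^ 2)
    (x : UnitAddCircle) :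
    ‖kernel n α K x - (Real.exp (-t ^ 2 / 2) : ℂ) * complexProduct n α K x‖ ≤
      4 * t ^ 2 * δ + Real.exp (2 * t ^ 2) * ‖squarePart n α K x‖ := by
  set u : ℕ → ℝ := fun k => wave n α k x with hu
  set Q : ℝ := (squarePart n α K x).re / 2 with hQ
  have hsq : ∑ k ∈ range K, u k ^ 2 = t ^ 2 + Q := by
    simp only [hu, wave_sq, sum_add_distrib, ← sum_div, hsum, hQ, squarePart, Complex.re_sum]
    ring
  have hQt : |Q| ≤ t ^ 2 := by
    rw [hQ, abs_div, abs_two, div_le_iff₀ two_pos, mul_comm]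
    refine (Complex.abs_re_le_norm _).trans ((norm_sum_le _ _).trans (le_of_eq ?_))
    rw [← hsum]
    exact sum_congr rfl fun k _ => by
      rw [norm_mul, norm_pow, fourier_apply, Circle.norm_coe, mul_one]
  have hQn : |Q| ≤ ‖squarePart n α K x‖ := by
    rw [hQ, abs_div, abs_two]
    linarith [Complex.abs_re_le_norm (squarePart n α K x), abs_nonneg (squarePart n α K x).re]
  have hu1 : ∀ k ∈ range K, |u k| ≤ δ := fun k hk => (abs_wave_le n α k x).trans (hα k hk)
  have hfac : ∀ k, ‖(1 + (u k : ℂ) * Complex.I) * (Real.exp (-u k ^ 2 / 2) : ℂ)‖ ≤ 1 := fun k => by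
    rw [norm_mul, Complex.norm_real, Real.norm_of_nonneg (Real.exp_pos _).le]
    refine (mul_le_mul_of_nonneg_right (norm_one_add_mul_I_le (u k))
      (Real.exp_pos _).le).trans (le_of_eq ?_)
    rw [← Real.exp_add]
    ring_nf
    exact Real.exp_zero
  have h1 : ‖kernel n α K x -
      ∏ k ∈ range K, (1 + (u k : ℂ) * Complex.I) * (Real.exp (-u k ^ 2 / 2) : ℂ)‖ ≤
        4 * t ^ 2 * δ := by
    rw [kernel, Complex.ofReal_sum, sum_mul, Complex.exp_sum]
    refine (norm_prod_sub_prod_le _ _ _ (fun k _ => (Complex.norm_exp_ofReal_mul_I _).le)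
      fun k _ => hfac k).trans ?_
    calc _ ≤ ∑ k ∈ range K, 2 * δ * ‖α k‖ ^ 2 := by
          refine sum_le_sum fun k hk => (norm_exp_sub_one_add_mul_exp_le
            ((hu1 k hk).trans hδ)).trans ?_
          rw [mul_assoc 2 δ, pow_succ', ← sq_abs ‖α k‖, abs_norm]
          refine mul_le_mul_of_nonneg_left (mul_le_mul (hu1 k hk)
            (pow_le_pow_left₀ (abs_nonneg _) (abs_wave_le n α k x) 2) (by positivity)
            ((abs_nonneg _).trans (hu1 k hk))) two_pos.le
      _ = 4 * t ^ 2 * δ := by rw [← mul_sum, hsum]; ring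
  have h2 : ∏ k ∈ range K, (1 + (u k : ℂ) * Complex.I) * (Real.exp (-u k ^ 2 / 2) : ℂ) =
      complexProduct n α K x * (Real.exp (-(t ^ 2 + Q) / 2) : ℂ) := by
    rw [prod_mul_distrib, complexProduct, ← Complex.ofReal_prod, ← Real.exp_sum, ← hsq,
      ← sum_div, sum_neg_distrib]
  have h3 : ‖complexProduct n α K x‖ ≤ Real.exp (t ^ 2) := by
    rw [complexProduct, norm_prod]
    refine (prod_le_prod (fun k _ => norm_nonneg _) fun k _ => norm_one_add_mul_I_le _).trans ?_
    rw [← Real.exp_sum, ← sum_div, Real.exp_le_exp]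
    linarith [(abs_le.1 hQt).2, hsq]
  refine (norm_sub_le_norm_sub_add_norm_sub _ (∏ k ∈ range K,
    (1 + (u k : ℂ) * Complex.I) * (Real.exp (-u k ^ 2 / 2) : ℂ)) _).trans (add_le_add h1 ?_)
  rw [h2, mul_comm (Real.exp (-t ^ 2 / 2) : ℂ), ← mul_sub, norm_mul, ← Complex.ofReal_sub,
    Complex.norm_real, Real.norm_eq_abs,
    show -(t ^ 2 + Q) / 2 = -t ^ 2 / 2 + -Q / 2 by ring, Real.exp_add, ← mul_sub_one, abs_mul,
    Real.abs_exp]
  refine (mul_le_mul h3 (mul_le_mul_of_nonneg_left (abs_exp_sub_one_le _) (Real.exp_pos _).le)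
    (by positivity) (Real.exp_pos _).le).trans ?_
  rw [show Real.exp (t ^ 2) * (Real.exp (-t ^ 2 / 2) * (|-Q / 2| * Real.exp |-Q / 2|)) =
    |-Q / 2| * Real.exp (t ^ 2 + -t ^ 2 / 2 + |-Q / 2|) by rw [Real.exp_add, Real.exp_add]; ring,
    mul_comm (Real.exp (2 * t ^ 2))]
  have h4 : |-Q / 2| = |Q| / 2 := by rw [abs_div, abs_neg, abs_two]
  refine mul_le_mul ?_ (Real.exp_le_exp.2 ?_) (Real.exp_pos _).le (norm_nonneg _)
  · linarith [abs_nonneg Q]
  · linarith [sq_nonneg t]

/-- Weak convergence to a constant passes from the monomials to all integrable functions. -/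
theorem tendsto_integral_mul {G : ℕ → UnitAddCircle → ℂ} (hG : ∀ K, Continuous (G K))
    (hG1 : ∀ K x, ‖G K x‖ ≤ 1) {L : ℂ}
    (hm : ∀ m : ℤ, Tendsto (fun K => ∫ x, fourier m x * G K x ∂haarAddCircle) atTop
      (𝓝 (if m = 0 then L else 0)))
    {f : UnitAddCircle → ℂ} (hf : Integrable f haarAddCircle) :
    Tendsto (fun K => ∫ x, f x * G K x ∂haarAddCircle) atTop
      (𝓝 ((∫ x, f x ∂haarAddCircle) * L)) := by
  have hi : ∀ {g : UnitAddCircle → ℂ}, Integrable g haarAddCircle → ∀ K,
      Integrable (fun x => g x * G K x) haarAddCircle := fun hg K =>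
    hg.mul_bdd (c := 1) (hG K).aestronglyMeasurable (Eventually.of_forall (hG1 K))
  have hC : ∀ g : C(UnitAddCircle, ℂ), Integrable g (haarAddCircle : Measure UnitAddCircle) :=
    fun g => g.continuous.integrable_of_hasCompactSupport (HasCompactSupport.of_compactSpace _)
  have hspan : ∀ g ∈ Submodule.span ℂ (Set.range <| @fourier (1 : ℝ)),
      Tendsto (fun K => ∫ x, g x * G K x ∂haarAddCircle) atTop
        (𝓝 ((∫ x, g x ∂haarAddCircle) * L)) := by
    intro g hg
    induction hg using Submodule.span_induction with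
    | mem g hg =>
      obtain ⟨m, rfl⟩ := hg
      rw [integral_fourier, ite_mul, one_mul, zero_mul]
      exact hm m
    | zero => simp
    | add g g' _ _ hg hg' =>
      simp only [ContinuousMap.add_apply, add_mul]
      rw [integral_add (hC g) (hC g'), add_mul]
      exact (hg.add hg').congr fun K => (integral_add (hi (hC g) K) (hi (hC g') K)).symm
    | smul a g _ hg =>
      simp only [ContinuousMap.smul_apply, smul_eq_mul, mul_assoc]
      rw [integral_const_mul, mul_assoc]
      exact (hg.const_mul a).congr fun K => (integral_const_mul a _).symm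
  rw [Metric.tendsto_atTop]
  intro ε hε
  set η := ε / (3 * (1 + ‖L‖)) with hη
  have hη0 : 0 < η := by positivity
  obtain ⟨g₁, hg₁, -⟩ := hf.exists_boundedContinuous_integral_sub_le (half_pos hη0)
  have hmem : g₁.toContinuousMap ∈
      closure (Submodule.span ℂ (Set.range (@fourier (1 : ℝ))) : Set C(UnitAddCircle, ℂ)) := by
    rw [← Submodule.topologicalClosure_coe, span_fourier_closure_eq_top]
    trivial
  obtain ⟨g, hg, hd⟩ := Metric.mem_closure_iff.1 hmem (η / 2) (half_pos hη0)
  have hfg : ∫ x, ‖f x - g x‖ ∂haarAddCircle ≤ η := by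
    have e : ∀ x, ‖f x - g x‖ ≤ ‖f x - g₁ x‖ + η / 2 := fun x => by
      refine (norm_sub_le_norm_sub_add_norm_sub _ (g₁ x) _).trans (add_le_add le_rfl ?_)
      exact (((g₁.toContinuousMap - g).norm_coe_le_norm x).trans
        (dist_eq_norm g₁.toContinuousMap g ▸ hd.le) :)
    have hg₁i : Integrable g₁ (haarAddCircle : Measure UnitAddCircle) := hC g₁.toContinuousMap
    refine (integral_mono (hf.sub (hC g)).norm
      ((hf.sub hg₁i).norm.add (integrable_const _)) e).trans ?_
    rw [integral_add' (hf.sub hg₁i).norm (integrable_const _), integral_const, probReal_univ,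
      one_smul]
    simp only [Pi.sub_apply] at hg₁ ⊢
    linarith
  obtain ⟨N, hN⟩ := Metric.tendsto_atTop.1 (hspan g hg) (ε / 3) (by positivity)
  refine ⟨N, fun K hK => ?_⟩
  have h1 : ‖(∫ x, f x * G K x ∂haarAddCircle) - ∫ x, g x * G K x ∂haarAddCircle‖ ≤ η := by
    rw [← integral_sub (hi hf K) (hi (hC g) K)]
    refine (norm_integral_le_of_norm_le (hf.sub (hC g)).norm
      (Eventually.of_forall fun x => ?_)).trans
      hfg
    rw [← sub_mul, norm_mul, Pi.sub_apply]
    exact mul_le_of_le_one_right (norm_nonneg _) (hG1 K x)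
  have h2 : ‖(∫ x, g x ∂haarAddCircle) * L - (∫ x, f x ∂haarAddCircle) * L‖ ≤ η * ‖L‖ := by
    rw [← sub_mul, norm_mul, ← integral_sub (hC g) hf]
    refine mul_le_mul_of_nonneg_right ((norm_integral_le_integral_norm _).trans ?_) (norm_nonneg _)
    exact le_trans (le_of_eq (integral_congr_ae (Eventually.of_forall fun x => norm_sub_rev _ _)))
      hfg
  have h3 : η * (1 + ‖L‖) = ε / 3 := by rw [hη]; field_simp
  have h4 := hN K hK
  rw [dist_eq_norm] at h4 ⊢
  calc _ ≤ ‖(∫ x, f x * G K x ∂haarAddCircle) - ∫ x, g x * G K x ∂haarAddCircle‖ +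
        ‖(∫ x, g x * G K x ∂haarAddCircle) - (∫ x, g x ∂haarAddCircle) * L‖ +
        ‖(∫ x, g x ∂haarAddCircle) * L - (∫ x, f x ∂haarAddCircle) * L‖ := by
        simp only [← dist_eq_norm]; exact dist_triangle4 _ _ _ _
    _ < ε := by nlinarith

/-- **The characteristic functions.** -/
theorem tendsto_integral_kernel (h : IsGap n) (α : ℕ → ℕ → ℂ) {t : ℝ}
    (hsum : ∀ᶠ K in atTop, ∑ k ∈ range K, ‖α K k‖ ^ 2 = 2 * t ^ 2)
    (hsmall : ∀ δ > 0, ∀ᶠ K in atTop, ∀ k ∈ range K, ‖α K k‖ ≤ δ)
    {f : UnitAddCircle → ℂ} (hf : Integrable f haarAddCircle) :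
    Tendsto (fun K => ∫ x, f x * kernel n (α K) K x ∂haarAddCircle) atTop
      (𝓝 ((∫ x, f x ∂haarAddCircle) * (Real.exp (-t ^ 2 / 2) : ℂ))) := by
  have hcK : ∀ K, Continuous (kernel n (α K) K) := fun K => by
    unfold kernel wave
    fun_prop
  refine tendsto_integral_mul hcK (fun K x => (Complex.norm_exp_ofReal_mul_I _).le) (fun m => ?_) hf
  have h0 : ∀ k, Tendsto (fun K => α K k) atTop (𝓝 0) := fun k => by
    rw [tendsto_zero_iff_norm_tendsto_zero, Metric.tendsto_atTop]
    intro δ hδ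
    obtain ⟨N, hN⟩ := eventually_atTop.1 ((hsmall _ (half_pos hδ)).and (eventually_gt_atTop k))
    refine ⟨N, fun K hK => ?_⟩
    rw [Real.dist_eq, sub_zero, abs_norm]
    linarith [(hN K hK).1 k (mem_range.2 (hN K hK).2)]
  have hmain := (tendsto_complexCoeff h α h0 m).const_mul (Real.exp (-t ^ 2 / 2) : ℂ)
  rw [mul_ite, mul_one, mul_zero] at hmain
  refine tendsto_of_tendsto_of_dist hmain ?_
  rw [Metric.tendsto_atTop]
  intro ε hε
  set C := Real.exp (2 * t ^ 2) with hC
  set ρ := ε / (4 * C) with hρ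
  have hC0 : 0 < C := Real.exp_pos _
  have hρ0 : 0 < ρ := by positivity
  -- `‖S‖ ≤ ρ + ‖S‖ ^ 2 / ρ`
  obtain ⟨δ, hδ, hδ1, hδe, hδq⟩ : ∃ δ, 0 < δ ∧ δ ≤ 1 ∧ 4 * t ^ 2 * δ ≤ ε / 4 ∧
      C * (δ ^ 2 * (2 * t ^ 2) / ρ) ≤ ε / 4 := by
    have a1 : Tendsto (fun δ : ℝ => 4 * t ^ 2 * δ) (𝓝 0) (𝓝 0) :=
      (by fun_prop : Continuous fun δ : ℝ => 4 * t ^ 2 * δ).tendsto' 0 0 (by simp)
    have a2 : Tendsto (fun δ : ℝ => C * (δ ^ 2 * (2 * t ^ 2) / ρ)) (𝓝 0) (𝓝 0) :=
      (by fun_prop : Continuous fun δ : ℝ => C * (δ ^ 2 * (2 * t ^ 2) / ρ)).tendsto' 0 0 (by simp)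
    have e := ((eventually_le_nhds (zero_lt_one' ℝ)).and
      ((a1.eventually_le_const (by positivity : 0 < ε / 4)).and
        (a2.eventually_le_const (by positivity : 0 < ε / 4))))
    obtain ⟨r, hr, hball⟩ := Metric.eventually_nhds_iff.1 e
    have hm := hball (show dist (r / 2) 0 < r by
      rw [Real.dist_eq, sub_zero, abs_of_pos (half_pos hr)]; linarith)
    exact ⟨r / 2, half_pos hr, hm.1, hm.2.1, hm.2.2⟩
  obtain ⟨N, hN⟩ := eventually_atTop.1 (hsum.and (hsmall δ hδ))
  refine ⟨N, fun K hK => ?_⟩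
  obtain ⟨hs, hd⟩ := hN K hK
  have hiG : Integrable (fun x => fourier m x * kernel n (α K) K x)
      (haarAddCircle : Measure UnitAddCircle) :=
    ((fourier m).continuous.mul (hcK K)).integrable_of_hasCompactSupport
      (HasCompactSupport.of_compactSpace _)
  have hS : Continuous fun x => ‖squarePart n (α K) K x‖ ^ 2 := by unfold squarePart; fun_prop
  have hiS : Integrable (fun x => ‖squarePart n (α K) K x‖ ^ 2)
      (haarAddCircle : Measure UnitAddCircle) :=
    hS.integrable_of_hasCompactSupport (HasCompactSupport.of_compactSpace _)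
  have hQ : ∫ x, ‖squarePart n (α K) K x‖ ^ 2 ∂haarAddCircle ≤ δ ^ 2 * (2 * t ^ 2) := by
    have h2 := integral_norm_sq_sum_le (n := fun k => 2 * n k) haarAddCircle (range K)
      (fun k => α K k ^ 2) 0 (fun k _ => ?_) fun j _ k _ hjk => ?_
    · simp only [Pi.zero_apply, sub_zero] at h2
      refine h2.trans ?_
      rw [← hs, mul_sum]
      refine sum_le_sum fun k hk => ?_
      rw [norm_pow, sq (‖α K k‖ ^ 2)]
      exact mul_le_mul_of_nonneg_right (pow_le_pow_left₀ (norm_nonneg _) (hd k hk) 2) (sq_nonneg _)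
    · rw [integral_fourier, if_neg, Pi.zero_apply]
      have := h.strictMono.monotone (Nat.zero_le k)
      have := h.1
      omega
    · rw [integral_fourier, if_neg, Pi.zero_apply, zero_mul]
      have := h.strictMono.injective.ne hjk
      omega
  rw [Real.dist_eq, sub_zero, abs_of_nonneg dist_nonneg, dist_comm, dist_eq_norm, complexCoeff,
    ← integral_const_mul, ← integral_sub hiG
      ((integrable_fourier_mul_complexProduct n (α K) K m).const_mul _)]
  have hdom : Integrable
      (fun x => (4 * t ^ 2 * δ + C * ρ) + C / ρ * ‖squarePart n (α K) K x‖ ^ 2)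
      (haarAddCircle : Measure UnitAddCircle) :=
    (integrable_const (4 * t ^ 2 * δ + C * ρ)).fun_add (hiS.const_mul (C / ρ))
  refine lt_of_le_of_lt (norm_integral_le_of_norm_le hdom
    (Eventually.of_forall fun x => ?_)) ?_
  · rw [← mul_left_comm, ← mul_sub, norm_mul, fourier_apply, Circle.norm_coe, one_mul]
    refine (norm_kernel_sub_le n (α K) K hδ1 hd hs x).trans ?_
    rw [add_assoc, add_le_add_iff_left, ← hC, div_mul_eq_mul_div, mul_div_assoc, ← mul_add]
    refine mul_le_mul_of_nonneg_left ?_ hC0.le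
    set r := ‖squarePart n (α K) K x‖
    rw [← sub_nonneg, show ρ + r ^ 2 / ρ - r = ((r - ρ / 2) ^ 2 + 3 / 4 * ρ ^ 2) / ρ by
      field_simp; ring]
    positivity
  · rw [integral_add (integrable_const _) (hiS.const_mul _), integral_const, probReal_univ,
      one_smul, integral_const_mul]
    have h5 : C * ρ = ε / 4 := by rw [hρ]; field_simp
    have h6 : C / ρ * ∫ x, ‖squarePart n (α K) K x‖ ^ 2 ∂haarAddCircle ≤ ε / 4 := by
      refine (mul_le_mul_of_nonneg_left hQ (by positivity)).trans ?_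
      rw [div_mul_eq_mul_div, mul_div_assoc]
      exact hδq
    linarith

/-- The normalisation. -/
def scale (z : ℕ → ℂ) (K : ℕ) : ℝ := √((∑ k ∈ range K, ‖z k‖ ^ 2) / 2)

/-- **Salem and Zygmund.** -/
theorem tendsto_cond_le (h : IsGap n) (z : ℕ → ℂ) (hA : Tendsto (scale z) atTop atTop)
    (hz : ∀ ε > 0, ∀ᶠ K in atTop, ∀ k < K, ‖z k‖ ≤ ε * scale z K)
    {E : Set UnitAddCircle} (hE : MeasurableSet E) (hE0 : haarAddCircle E ≠ 0) (y : ℝ) :
    Tendsto (fun K => haarAddCircle[{x | (∑ k ∈ range K, wave n z k x) / scale z K ≤ y} | E]) atTop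
      (𝓝 (ProbabilityTheory.gaussianReal 0 1 (Set.Iic y))) := by
  have hprob := ProbabilityTheory.cond_isProbabilityMeasure (μ := haarAddCircle) hE0
  set X : ℕ → UnitAddCircle → ℝ := fun K x => (∑ k ∈ range K, wave n z k x) / scale z K with hX
  have hXm : ∀ K, Measurable (X K) := fun K =>
    (((continuous_finsetSum _ fun k _ => continuous_wave n z k)).div_const _).measurable
  let ν : ℕ → ProbabilityMeasure ℝ := fun K =>
    ⟨(haarAddCircle[|E]).map (X K), Measure.isProbabilityMeasure_map (hXm K).aemeasurable⟩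
  let γ : ProbabilityMeasure ℝ := ⟨ProbabilityTheory.gaussianReal 0 1, inferInstance⟩
  have hconv : Tendsto ν atTop (𝓝 γ) := by
    refine ProbabilityMeasure.tendsto_iff_tendsto_charFun.2 fun t => ?_
    change Tendsto (fun K => charFun ((haarAddCircle[|E]).map (X K)) t) atTop
      (𝓝 (charFun (ProbabilityTheory.gaussianReal 0 1) t))
    set α : ℕ → ℕ → ℂ := fun K k => ((t / scale z K : ℝ) : ℂ) * z k with hα
    have hsum : ∀ᶠ K in atTop, ∑ k ∈ range K, ‖α K k‖ ^ 2 = 2 * t ^ 2 := by
      filter_upwards [hA.eventually (eventually_gt_atTop 0)] with K hK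
      simp only [hα, norm_mul, Complex.norm_real, Real.norm_eq_abs, mul_pow, sq_abs, ← mul_sum]
      have e : scale z K ^ 2 = (∑ k ∈ range K, ‖z k‖ ^ 2) / 2 := Real.sq_sqrt (by positivity)
      rw [div_pow, show ∑ k ∈ range K, ‖z k‖ ^ 2 = 2 * scale z K ^ 2 by rw [e]; ring]
      field_simp
    have hsmall : ∀ δ > 0, ∀ᶠ K in atTop, ∀ k ∈ range K, ‖α K k‖ ≤ δ := fun δ hδ => by
      filter_upwards [hA.eventually (eventually_gt_atTop 0),
        hz (δ / (|t| + 1)) (by positivity)] with K hK hzK k hk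
      simp only [hα, norm_mul, Complex.norm_real, Real.norm_eq_abs, abs_div, abs_of_pos hK]
      calc |t| / scale z K * ‖z k‖ ≤ |t| / scale z K * (δ / (|t| + 1) * scale z K) :=
            mul_le_mul_of_nonneg_left (hzK k (mem_range.1 hk)) (by positivity)
        _ = δ * (|t| / (|t| + 1)) := by field_simp
        _ ≤ δ := mul_le_of_le_one_right hδ.le ((div_le_one (by positivity)).2 (by linarith))
    have hlim := tendsto_integral_kernel h α hsum hsmall
      (f := E.indicator fun _ => ((haarAddCircle.real E)⁻¹ : ℂ))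
      ((integrable_const _).indicator hE)
    have hE' : haarAddCircle.real E ≠ 0 := (measureReal_ne_zero_iff (measure_ne_top _ _)).2 hE0
    rw [integral_indicator hE, setIntegral_const, Complex.real_smul,
      mul_inv_cancel₀ (Complex.ofReal_ne_zero.2 hE'), one_mul] at hlim
    rw [ProbabilityTheory.charFun_gaussianReal]
    refine Tendsto.congr (fun K => ?_) (hlim.trans (le_of_eq ?_))
    · rw [charFun_apply_real, integral_map (hXm K).aemeasurable (by fun_prop),
        ProbabilityTheory.cond, integral_smul_measure, ← integral_indicator hE,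
        ← integral_smul]
      refine integral_congr_ae (Eventually.of_forall fun x => ?_)
      simp only [ENNReal.toReal_inv, Complex.real_smul, Complex.ofReal_inv]
      rw [← measureReal_def]
      by_cases hx : x ∈ E
      · rw [Set.indicator_of_mem hx, Set.indicator_of_mem hx, kernel, ← Complex.ofReal_mul]
        congr 4
        simp only [hX, hα, wave, mul_div_assoc', mul_sum, sum_div]
        refine sum_congr rfl fun k _ => ?_
        rw [mul_assoc, Complex.re_ofReal_mul]
        ring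
      · simp [Set.indicator_of_notMem hx]
    · congr 1
      push_cast
      ring_nf
  have hnull : (γ : Measure ℝ) (frontier (Set.Iic y)) = 0 := by
    rw [frontier_Iic]
    have := ProbabilityTheory.nullSingletonClass_gaussianReal (μ := 0) (one_ne_zero (α := NNReal))
    exact measure_singleton (μ := ProbabilityTheory.gaussianReal 0 1) y
  refine (ProbabilityMeasure.tendsto_measure_of_null_frontier_of_tendsto' hconv hnull).congr
    fun K => ?_
  change ((haarAddCircle[|E]).map (X K)) (Set.Iic y) = _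
  rw [Measure.map_apply (hXm K) measurableSet_Iic]
  rfl

end FA.LacunaryCLT

end
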